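import Fermat.Agent.Curve.Regular.Approx
import Mathlib.FieldTheory.Galois.Basic
import Mathlib.RingTheory.Norm.Transitivity
import Mathlib.LinearAlgebra.LinearIndependent.Basic

/-!
# Invariant integral elements are generated by symmetrised coefficients

For a finite group `G` of automorphisms of a function field `K/k` fixing `x`, a subalgebra that
contains the coefficients of `∏ (X - g h)` for every `h` integral over `k[x]` contains every
invariant element integral over `k[x]`.  This holds in every characteristic.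
-/

set_option autoImplicit false

noncomputable section

open AlgebraicCurve Polynomial IntermediateField

namespace FermatAgent.Curve

theorem isFF_of_finite_left {k K : Type*} [Field k] [Field K] [Algebra k K] [IsFF k K]
    (K0 : IntermediateField k K) {x : K0} (hx : Transcendental k x) : IsFF k K0 := by
  have hxK : Transcendental k (x : K) :=
    (transcendental_algebraMap_iff (R := k) (algebraMap K0 K).injective).2 hx
  have := IsFF.finite_adjoin (K := k) (F := K) hxK
  have hE : (k⟮x⟯).map K0.val = k⟮(x : K)⟯ := by rw [adjoin_map]; simp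
  let e : k⟮(x : K)⟯ ≃+* k⟮x⟯ :=
    ((IntermediateField.equivOfEq hE.symm).trans (k⟮x⟯.equivMap K0.val).symm).toRingEquiv
  have hfinK : Module.Finite k⟮x⟯ K := by
    refine Module.Finite.of_equiv_equiv e (RingEquiv.refl K) ?_
    ext a
    obtain ⟨b, rfl⟩ := e.symm.surjective a
    simp only [RingHom.comp_apply, RingEquiv.coe_toRingHom,
      RingEquiv.apply_symm_apply, RingEquiv.refl_apply]
    rfl
  have : Module.Finite k⟮x⟯ K0 := FiniteDimensional.left k⟮x⟯ K0 K
  exact ⟨⟨x, hx, inferInstance⟩⟩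

/-- Homomorphisms keep integrality over `K[x]`. -/
theorem IntOver.map {k K L : Type*} [Field k] [Field K] [Algebra k K] [Field L] [Algebra k L]
    (φ : K →ₐ[k] L) {x f : K} (h : IntOver k x f) : IntOver k (φ x) (φ f) := by
  obtain ⟨p, hp, h0⟩ := h
  refine ⟨p, hp, ?_⟩
  have h1 := congrArg φ.toRingHom h0
  rw [hom_eval₂, map_zero] at h1
  refine Eq.trans ?_ h1
  congr 1
  exact RingHom.ext fun q => aeval_algHom_apply φ x q

/-- Integrality over `K[x]` descends along homomorphisms. -/
theorem IntOver.of_map {k K L : Type*} [Field k] [Field K] [Algebra k K] [Field L] [Algebra k L]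
    (φ : K →ₐ[k] L) {x f : K} (h : IntOver k (φ x) (φ f)) : IntOver k x f := by
  obtain ⟨p, hp, h0⟩ := h
  refine ⟨p, hp, φ.toRingHom.injective ?_⟩
  rw [map_zero, hom_eval₂]
  refine Eq.trans ?_ h0
  congr 1
  exact RingHom.ext fun q => (aeval_algHom_apply φ x q).symm

variable {k K : Type*} [Field k] [IsAlgClosed k] [Field K] [Algebra k K] [IsFF k K]
  (G : Subgroup (K ≃ₐ[k] K)) [Fintype G]

omit [IsAlgClosed k] in
theorem exists_intOver_sum_ne_zero {x : K} (hx : Transcendental k x) (hxG : ∀ g ∈ G, g x = x) :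
    ∃ w, IntOver k x w ∧ ∑ g : G, (g : K ≃ₐ[k] K) w ≠ 0 := by
  classical
  obtain ⟨w0, hw0⟩ : ∃ w : K, ∑ g : G, (g : K ≃ₐ[k] K) w ≠ 0 := by
    by_contra! hall
    have hinj : Function.Injective fun g : G => ((g : K ≃ₐ[k] K) : K →* K) := fun g g' h =>
      Subtype.ext (AlgEquiv.ext fun w => congrArg (fun f : K →* K => f w) h)
    have hli := (linearIndependent_monoidHom K K).comp _ hinj
    rw [Fintype.linearIndependent_iff] at hli
    refine one_ne_zero (hli (fun _ => (1 : K)) (funext fun w => ?_) (1 : G))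
    simpa [Finset.sum_apply] using hall w
  obtain ⟨p, hp, hreg⟩ := exists_mul_regular hx w0
  refine ⟨aeval x p * w0, intOver_of_ordGE hreg, ?_⟩
  have hfix : ∀ g : G, (g : K ≃ₐ[k] K) (aeval x p) = aeval x p := fun g => by
    rw [← aeval_algHom_apply (g : K ≃ₐ[k] K), hxG _ g.2]
  simp only [map_mul, hfix, ← Finset.mul_sum]
  exact mul_ne_zero (fun h => hp (transcendental_iff.1 hx p h)) hw0

omit [IsAlgClosed k] [IsFF k K] in
theorem norm_fixedField_eq_prod (h : K) :
    algebraMap (fixedField G) K (Algebra.norm (fixedField G) h) =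
      ∏ g : G, (g : K ≃ₐ[k] K) h := by
  classical
  have : IsGalois (fixedField G) K :=
    inferInstanceAs (IsGalois (FixedPoints.subfield G K) K)
  have : FiniteDimensional (fixedField G) K :=
    inferInstanceAs (FiniteDimensional (FixedPoints.subfield G K) K)
  rw [Algebra.norm_eq_prod_automorphisms]
  let e : G ≃ (K ≃ₐ[fixedField G] K) := (FixedPoints.toAlgAutMulEquiv G K).toEquiv
  exact (Fintype.prod_equiv e _ _ fun g => rfl).symm

omit [IsAlgClosed k] [IsFF k K] in
theorem exists_charExp (p n : ℕ) [ExpChar k p] (hn : 0 < n) :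
    ∃ v m : ℕ, n = m * p ^ v ∧ (m : k) ≠ 0 := by
  cases ‹ExpChar k p› with
  | zero => exact ⟨0, n, by simp, Nat.cast_ne_zero.mpr hn.ne'⟩
  | prime hp =>
    obtain ⟨v, m, hm, he⟩ := Nat.exists_eq_pow_mul_and_not_dvd hn.ne' p hp.ne_one
    exact ⟨v, m, by rw [he]; ring, fun h => hm ((CharP.cast_eq_zero_iff k p m).mp h)⟩

variable {G} {x : K} (R0 : Subalgebra k K)

omit [IsAlgClosed k] in
/-- Invariant integral elements times a symmetrised integral one lie in the algebra. -/
private theorem sum_mul_mem (hR : ∀ h, IntOver k x h → ∀ i,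
      (∏ g : G, (X - C ((g : K ≃ₐ[k] K) h))).coeff i ∈ R0)
    {w y : K} (hw : IntOver k x w) (hy : IntOver k x y) (hyG : ∀ g ∈ G, g y = y) :
    (∑ g : G, (g : K ≃ₐ[k] K) w) * y ∈ R0 := by
  classical
  have hG0 : 0 < (Finset.univ : Finset G).card := Finset.card_pos.2 ⟨1, Finset.mem_univ _⟩
  have hyw : IntOver k x (y * w) :=
    intOver_of_ordGE fun v hv => ((hy.ordGE hv).mul (hw.ordGE hv)).mono (by simp)
  have h1 := hR _ hyw ((Finset.univ : Finset G).card - 1)
  rw [prod_X_sub_C_coeff_card_pred _ _ hG0, neg_mem_iff] at h1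
  rw [show ∑ g : G, (g : K ≃ₐ[k] K) (y * w) = (∑ g : G, (g : K ≃ₐ[k] K) w) * y by
    rw [Finset.sum_mul]
    exact Finset.sum_congr rfl fun g _ => by rw [map_mul, hyG _ g.2, mul_comm]] at h1
  exact h1

omit [IsAlgClosed k] [IsFF k K] in
/-- A fixed power of every invariant integral element lies in the algebra. -/
private theorem exists_pow_mem (hR : ∀ h, IntOver k x h → ∀ i,
      (∏ g : G, (X - C ((g : K ≃ₐ[k] K) h))).coeff i ∈ R0) :
    ∃ q, 0 < q ∧ ∀ y, IntOver k x y → (∀ g ∈ G, g y = y) → y ^ q ∈ R0 := by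
  classical
  obtain ⟨p, hp⟩ := ExpChar.exists k
  have := hp
  have : ExpChar K p := expChar_of_injective_algebraMap (algebraMap k K).injective p
  obtain ⟨v, m, hnm, hm⟩ := exists_charExp (k := k) p (Fintype.card G) Fintype.card_pos
  set q := p ^ v with hqdef
  have hq0 : 0 < q := pow_pos (expChar_pos k p) v
  refine ⟨q, hq0, fun y hy hyG => ?_⟩
  have h1 : ∏ g : G, (X - C ((g : K ≃ₐ[k] K) y)) = Polynomial.expand K q ((X - C (y ^ q)) ^ m) := by
    rw [Finset.prod_congr rfl fun g _ => by rw [hyG _ g.2], Finset.prod_const, Finset.card_univ,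
      hnm, mul_comm, pow_mul, sub_pow_expChar_pow, map_pow, map_sub, Polynomial.expand_X,
      Polynomial.expand_C, map_pow]
  have hm0 : 0 < m := Nat.pos_of_ne_zero fun h => hm (by rw [h, Nat.cast_zero])
  have h2 := hR y hy (q * (m - 1))
  rw [h1, Polynomial.coeff_expand_mul' hq0] at h2
  have h3 : ((X - C (y ^ q)) ^ m).coeff (m - 1) = -((m : K) * y ^ q) := by
    have := prod_X_sub_C_coeff_card_pred (Finset.range m) (fun _ => y ^ q) (by simpa using hm0)
    simpa [Finset.prod_const] using this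
  rw [h3, neg_mem_iff] at h2
  have := R0.smul_mem h2 (m : k)⁻¹
  rwa [Algebra.smul_def, ← mul_assoc, map_inv₀, map_natCast, inv_mul_cancel₀, one_mul] at this
  rw [← map_natCast (algebraMap k K)]
  exact (_root_.map_ne_zero _).2 hm

/-- A place of the fixed field has a uniformiser in the algebra. -/
private theorem exists_uniformiser (hx : Transcendental k x) (hxG : ∀ g ∈ G, g x = x)
    (hR : ∀ h, IntOver k x h → ∀ i,
      (∏ g : G, (X - C ((g : K ≃ₐ[k] K) h))).coeff i ∈ R0)
    [IsFF k (fixedField G)] {x0 : fixedField G} (hx0 : (x0 : K) = x)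
    (Q : Place k (fixedField G)) (hQ : 0 ≤ Q.ord x0) :
    ∃ u : fixedField G, (u : K) ∈ R0 ∧ IntOver k x0 u ∧ u ≠ 0 ∧ Q.ord u = 1 := by
  classical
  have : Module.Finite (fixedField G) K :=
    inferInstanceAs (FiniteDimensional (FixedPoints.subfield G K) K)
  obtain ⟨P0, hP0⟩ := exists_restrict_eq (F' := K) Q
  obtain ⟨π, hπ0, hπ⟩ := exists_ord_eq_one P0
  have hfib : ∀ P ∈ Q.fiber K, 0 ≤ P.ord x := fun P hP => by
    rw [show x = algebraMap (fixedField G) K x0 from hx0.symm,
      P.ord_restrict (F := fixedField G), Place.mem_fiber.1 hP]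
    exact mul_nonneg (Int.natCast_nonneg _) hQ
  obtain ⟨h, hh, hhS⟩ := exists_intOver_approx hx (Q.fiber K) hfib
    (fun P => if P = P0 then π else 1) (fun P _ => by
      split_ifs with hP
      · subst hP; exact Or.inr (by omega)
      · exact Or.inr (by rw [Place.ord_one])) 2
  have hord : ∀ P ∈ Q.fiber K, h ≠ 0 ∧ P.ord h = if P = P0 then 1 else 0 := by
    intro P hP
    have h' := hhS P hP
    by_cases hPP : P = P0
    · rw [if_pos hPP] at h' ⊢
      subst hPP
      obtain ⟨a, b⟩ := ord_add_eq_of_ordGE (v := P) hπ0 (g := h - π) (h'.mono (by omega))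
      rw [add_sub_cancel] at a b
      exact ⟨a, b.trans hπ⟩
    · rw [if_neg hPP] at h' ⊢
      obtain ⟨a, b⟩ := ord_add_eq_of_ordGE (v := P) (one_ne_zero (α := K)) (g := h - 1)
        (h'.mono (by simp))
      rw [add_sub_cancel] at a b
      exact ⟨a, b.trans P.ord_one⟩
  have hP0f : P0 ∈ Q.fiber K := Place.mem_fiber.2 hP0
  have hh0 : h ≠ 0 := (hord P0 hP0f).1
  set u := Algebra.norm (fixedField G) h
  have hu : (u : K) = ∏ g : G, (g : K ≃ₐ[k] K) h := norm_fixedField_eq_prod G h
  have hu0 : u ≠ 0 := Algebra.norm_ne_zero_iff.2 hh0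
  refine ⟨u, ?_, ?_, hu0, ?_⟩
  · have h1 := hR h hh 0
    rw [coeff_zero_eq_eval_zero, eval_prod] at h1
    simp only [eval_sub, eval_X, eval_C, zero_sub] at h1
    rw [Finset.prod_neg] at h1
    have h2 := R0.mul_mem (R0.algebraMap_mem ((-1 : k) ^ (Finset.univ : Finset G).card)) h1
    rwa [map_pow, map_neg, map_one, ← mul_assoc, ← mul_pow, neg_one_mul, neg_neg, one_pow,
      one_mul, ← hu] at h2
  · refine IntOver.of_map (fixedField G).val ?_
    show IntOver k (x0 : K) (u : K)
    rw [hx0]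
    rw [hu]
    refine intOver_of_ordGE fun P hP => ?_
    rw [← mem_iff_ordGE]
    refine prod_mem fun g _ => mem_iff_ordGE.2 ?_
    refine IntOver.ordGE (x := x) ?_ hP
    have := hh.map ((g : K ≃ₐ[k] K) : K →ₐ[k] K)
    simpa [hxG _ g.2] using this
  · rw [ord_norm_eq_sum inertiaDeg_eq_one Q hh0,
      Finset.sum_congr rfl fun P hP => (hord P hP).2, Finset.sum_ite_eq', if_pos hP0f]

omit [IsFF k K] [Fintype G] in
open Classical in
/-- An element of the algebra separating one place among finitely many to a given order. -/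
private theorem exists_separator {q : ℕ} (hq0 : 0 < q)
    (hpow : ∀ y, IntOver k x y → (∀ g ∈ G, g y = y) → y ^ q ∈ R0)
    [IsFF k (fixedField G)] {x0 : fixedField G} (hx0 : (x0 : K) = x)
    (hxt : Transcendental k x0) (S : Finset (Place k (fixedField G)))
    (hSx : ∀ Q ∈ S, 0 ≤ Q.ord x0) (e : ℕ) (Q : Place k (fixedField G)) :
    ∃ s : fixedField G, (s : K) ∈ R0 ∧ IntOver k x0 s ∧
      ∀ Q' ∈ S, OrdGE Q' e (s - if Q' = Q then 1 else 0) := by
  classical
  obtain ⟨s, hs, hs'⟩ := exists_intOver_approx hxt S hSx (fun Q' => if Q' = Q then 1 else 0)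
    (fun Q' _ => by split_ifs <;> [exact Or.inr (by rw [Place.ord_one]); exact OrdGE.zero]) e
  refine ⟨s ^ q, hpow _ (hx0 ▸ hs.map (fixedField G).val) ((mem_fixedField_iff _ _).1 s.2),
    intOver_of_ordGE fun P hP => ?_, fun Q' hQ' => ?_⟩
  · rw [← mem_iff_ordGE]
    exact pow_mem (mem_iff_ordGE.2 (hs.ordGE hP)) q
  · have h := hs' Q' hQ'
    set c : (fixedField G) := if Q' = Q then 1 else 0 with hc
    have hcq : c ^ q = c := by
      rw [hc]; split_ifs
      · exact one_pow q
      · exact zero_pow hq0.ne'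
    obtain ⟨r, hr⟩ : ∃ r, OrdGE Q' 0 r ∧ s ^ q - c ^ q = (s - c) * r := by
      refine ⟨∑ i ∈ Finset.range q, s ^ i * c ^ (q - 1 - i), OrdGE.sum fun i _ => ?_, ?_⟩
      · rw [← mem_iff_ordGE]
        refine mul_mem (pow_mem (mem_iff_ordGE.2 (hs.ordGE (hSx Q' hQ'))) _) (pow_mem ?_ _)
        rw [hc]; split_ifs <;> [exact one_mem _; exact zero_mem _]
      · rw [mul_comm, geom_sum₂_mul]
    rw [← hcq, hr.2]
    exact (h.mul hr.1).mono (by omega)

omit [IsFF k K] [Fintype G] in
/-- Integral elements of the fixed field have expansions with coefficients in the algebra. -/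
private theorem exists_expansion {x0 z0 u : fixedField G} [IsFF k (fixedField G)]
    {Q : Place k (fixedField G)} (hQ : 0 ≤ Q.ord x0) (hz0i : IntOver k x0 z0)
    (huR : (u : K) ∈ R0) (hui : IntOver k x0 u) (hu0 : u ≠ 0) (hu1 : Q.ord u = 1) (j : ℕ) :
    ∃ a : fixedField G, (a : K) ∈ R0 ∧ IntOver k x0 a ∧ OrdGE Q j (z0 - a) := by
  induction j with
  | zero =>
    exact ⟨0, zero_mem _, intOver_of_ordGE fun _ _ => OrdGE.zero,
      by simpa using hz0i.ordGE hQ⟩
  | succ j ih =>
    obtain ⟨a, haR, hai, ha⟩ := ih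
    have hu' : u ^ j ≠ 0 := pow_ne_zero _ (hu0)
    have h0 : OrdGE Q 0 ((z0 - a) / u ^ j) := by
      rw [div_eq_mul_inv]
      refine (ha.mul (ordGE_self (v := Q) (u ^ j)⁻¹)).mono ?_
      rw [Q.ord_inv, ord_pow, hu1]; simp
    obtain ⟨c, hc⟩ := exists_sub_algebraMap Q h0
    refine ⟨a + algebraMap k (fixedField G) c * u ^ j, ?_, ?_, ?_⟩
    · simp only [IntermediateField.coe_add, IntermediateField.coe_mul, IntermediateField.coe_pow]
      exact add_mem haR (mul_mem (R0.algebraMap_mem c) (pow_mem huR _))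
    · refine intOver_of_ordGE fun P hP => ?_
      rw [← mem_iff_ordGE]
      exact add_mem (mem_iff_ordGE.2 (hai.ordGE hP))
        (mul_mem (P.algebraMap_mem' c) (pow_mem (mem_iff_ordGE.2 (hui.ordGE hP)) _))
    · rw [show z0 - (a + algebraMap k (fixedField G) c * u ^ j) =
        ((z0 - a) / u ^ j - algebraMap k (fixedField G) c) * u ^ j by
          rw [sub_mul, div_mul_cancel₀ _ hu']; ring]
      refine (hc.mul (ordGE_self (v := Q) (u ^ j))).mono ?_
      rw [ord_pow, hu1]; push_cast; omega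

/-- The main theorem. -/
theorem mem_of_invariant (hx : Transcendental k x) (hxG : ∀ g ∈ G, g x = x)
    (hR : ∀ h, IntOver k x h → ∀ i,
      (∏ g : G, (X - C ((g : K ≃ₐ[k] K) h))).coeff i ∈ R0)
    {z : K} (hz : IntOver k x z) (hzG : ∀ g ∈ G, g z = z) : z ∈ R0 := by
  classical
  set K0 := fixedField G
  have hmem : ∀ {y : K}, y ∈ K0 ↔ ∀ g ∈ G, g y = y := fun {y} => mem_fixedField_iff _ y
  have hxK0 : x ∈ K0 := hmem.2 hxG
  set x0 : K0 := ⟨x, hxK0⟩
  have hx0 : Transcendental k x0 :=
    (transcendental_algebraMap_iff (R := k) (algebraMap K0 K).injective).1 hx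
  have : IsFF k K0 := isFF_of_finite_left K0 hx0
  -- the trace ideal
  obtain ⟨w, hw, hT⟩ := exists_intOver_sum_ne_zero G hx hxG
  set T := ∑ g : G, (g : K ≃ₐ[k] K) w with hTdef
  have hTG : ∀ g ∈ G, g T = T := fun g hg => by
    rw [hTdef, map_sum]
    exact Fintype.sum_equiv (Equiv.mulLeft (⟨g, hg⟩ : G)) _ _ fun a => rfl
  set T0 : K0 := ⟨T, hmem.2 hTG⟩
  have hT0 : T0 ≠ 0 := fun h => hT (congrArg Subtype.val h)
  obtain ⟨q, hq0, hpow⟩ := exists_pow_mem R0 hR
  -- the finite places where `T` vanishes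
  set S := ((finite_ord_ne_zero (K := k) T0).toFinset).filter
    fun Q => 0 ≤ Q.ord x0 ∧ 0 < Q.ord T0
  set e : ℕ := ∑ Q ∈ S, (Q.ord T0).natAbs
  have hSx : ∀ Q ∈ S, 0 ≤ Q.ord x0 := fun Q hQ => (Finset.mem_filter.1 hQ).2.1
  have hmap : ∀ {y : K0}, IntOver k x0 y → IntOver k x (y : K) := fun h => h.map K0.val
  have hfixc : ∀ y : K0, ∀ g ∈ G, g (y : K) = (y : K) := fun y => hmem.1 y.2
  choose u huR hui hu0 hu1 using fun Q hQ =>
    exists_uniformiser R0 hx hxG hR (x0 := x0) rfl Q (hSx Q hQ)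
  choose s hsR hsi hs using exists_separator R0 hq0 hpow (x0 := x0) rfl hx0 S hSx e
  have hz0 : z ∈ K0 := hmem.2 hzG
  set z0 : K0 := ⟨z, hz0⟩
  have hz0i : IntOver k x0 z0 := IntOver.of_map K0.val hz
  choose a haR hai ha using fun Q hQ => exists_expansion R0 (hSx Q hQ) hz0i (huR Q hQ)
    (hui Q hQ) (hu0 Q hQ) (hu1 Q hQ) e
  -- conclusion
  set b : K0 := ∑ Q ∈ S.attach, s Q.1 * a Q.1 Q.2
  have hbR : (b : K) ∈ R0 := by
    simp only [b, AddSubmonoidClass.coe_finsetSum, IntermediateField.coe_mul]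
    exact sum_mem fun Q _ => mul_mem (hsR _) (haR _ _)
  have hbi : IntOver k x0 b := intOver_of_ordGE fun P hP => OrdGE.sum fun Q _ =>
    (((hsi _).ordGE hP).mul ((hai _ Q.2).ordGE hP)).mono (by simp)
  have hzb : IntOver k x0 ((z0 - b) / T0) := by
    refine intOver_of_ordGE fun P hP => ?_
    have hzb0 : OrdGE P 0 (z0 - b) := (hz0i.ordGE hP).sub (hbi.ordGE hP)
    by_cases hPS : P ∈ S
    · have h1 : OrdGE P e (z0 - b) := by
        have e0 : ∑ Q ∈ S.attach, (if P = Q.1 then (1 : K0) else 0) * a Q.1 Q.2 = a P hPS := by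
          refine (Finset.sum_eq_single (⟨P, hPS⟩ : {Q // Q ∈ S}) (fun Q _ hQ => ?_)
            fun h => absurd (Finset.mem_attach _ _) h).trans (by simp)
          rw [if_neg fun h => hQ (Subtype.ext h.symm), zero_mul]
        have e1 : z0 - b = (z0 - a P hPS) +
            ∑ Q ∈ S.attach, ((if P = Q.1 then 1 else 0) - s Q.1) * a Q.1 Q.2 := by
          simp only [sub_mul, Finset.sum_sub_distrib]
          rw [e0]
          simp only [b]
          ring
        rw [e1]
        refine (ha P hPS).add (OrdGE.sum fun Q _ => ?_)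
        have h2 := (hs Q.1 P hPS).neg
        rw [neg_sub] at h2
        exact (h2.mul ((hai Q.1 Q.2).ordGE hP)).mono (by omega)
      rw [div_eq_mul_inv]
      refine (h1.mul (ordGE_self (v := P) T0⁻¹)).mono ?_
      rw [P.ord_inv]
      have : (P.ord T0).natAbs ≤ e :=
        Finset.single_le_sum (f := fun Q => (Q.ord T0).natAbs) (fun _ _ => Nat.zero_le _) hPS
      omega
    · rw [div_eq_mul_inv]
      refine (hzb0.mul (ordGE_self (v := P) T0⁻¹)).mono ?_
      rw [P.ord_inv]
      by_contra hneg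
      have hlt : 0 < P.ord T0 := by omega
      exact hPS (by simp [S, hP, hlt, hlt.ne'])
  have h1 := sum_mul_mem R0 hR hw (hmap hzb) (hfixc _)
  rw [IntermediateField.coe_div, mul_div_cancel₀ _ hT, AddSubgroupClass.coe_sub] at h1
  have := add_mem h1 hbR
  rwa [sub_add_cancel] at this

end FermatAgent.Curve
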