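import Fermat.Agent.Curve.Regular.Approx
import Fermat.Agent.Curve.Expansion

/-!
# Values at rational places and simple linear algebra modulo `x - a`
-/

set_option autoImplicit false

noncomputable section

open AlgebraicCurve Polynomial

namespace FermatAgent.Curve

variable {K F : Type*} [Field K] [Field F] [Algebra K F]

/-- Sums of integral elements are integral. -/
theorem IntOver.add {x f g : F} (hf : IntOver K x f) (hg : IntOver K x g) : IntOver K x (f + g) :=
  RingHom.IsIntegralElem.add _ hf hg

/-- Products of integral elements are integral. -/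
theorem IntOver.mul {x f g : F} (hf : IntOver K x f) (hg : IntOver K x g) : IntOver K x (f * g) :=
  RingHom.IsIntegralElem.mul _ hf hg

/-- Polynomials in `x` are integral. -/
theorem intOver_aeval (x : F) (p : K[X]) : IntOver K x (aeval x p) :=
  RingHom.isIntegralElem_map (aeval (R := K) x).toRingHom (x := p)

/-- Constants are integral. -/
theorem intOver_algebraMap (x : F) (c : K) : IntOver K x (algebraMap K F c) := by
  rw [← aeval_C x c]; exact intOver_aeval x _

/-- Finite sums of integral elements are integral. -/
theorem IntOver.sum {ι : Type*} {x : F} (s : Finset ι) {f : ι → F}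
    (h : ∀ i ∈ s, IntOver K x (f i)) : IntOver K x (∑ i ∈ s, f i) := by
  classical
  induction s using Finset.induction with
  | empty => rw [Finset.sum_empty, ← map_zero (algebraMap K F)]; exact intOver_algebraMap x 0
  | insert a s ha ih =>
    rw [Finset.sum_insert ha]
    exact (h a (by simp)).add (ih fun i hi => h i (by simp [hi]))

variable [IsAlgClosed K] [IsFF K F]
variable {v : Place K F}

variable (v) in
/-- The value at a place of a regular function (zero at a pole). -/
def placeVal (f : F) : K :=
  open Classical in if h : f ∈ v.toValuationSubring then evalAt v ⟨f, h⟩ else 0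

/-- A regular function minus its value vanishes at the place. -/
theorem placeVal_spec {f : F} (hf : OrdGE v 0 f) :
    OrdGE v 1 (f - algebraMap K F (placeVal v f)) := by
  rw [placeVal, dif_pos (mem_iff_ordGE.2 hf)]
  exact evalAt_spec v ⟨f, mem_iff_ordGE.2 hf⟩

/-- The value is determined by the vanishing of the difference. -/
theorem placeVal_eq {f : F} {c : K} (h : OrdGE v 1 (f - algebraMap K F c)) : placeVal v f = c := by
  refine eq_of_ordGE_one_sub (placeVal_spec ?_) h
  have := (h.mono zero_le_one).add (ordGE_algebraMap (v := v) c)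
  rwa [sub_add_cancel] at this

/-- The value of a constant. -/
theorem placeVal_algebraMap (c : K) : placeVal v (algebraMap K F c) = c :=
  placeVal_eq (by rw [sub_self]; exact OrdGE.zero)

/-- Values add. -/
theorem placeVal_add {f g : F} (hf : OrdGE v 0 f) (hg : OrdGE v 0 g) :
    placeVal v (f + g) = placeVal v f + placeVal v g := by
  refine placeVal_eq ?_
  rw [map_add, add_sub_add_comm]
  exact (placeVal_spec hf).add (placeVal_spec hg)

/-- Values multiply. -/
theorem placeVal_mul {f g : F} (hf : OrdGE v 0 f) (hg : OrdGE v 0 g) :
    placeVal v (f * g) = placeVal v f * placeVal v g := by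
  refine placeVal_eq ?_
  rw [map_mul, show f * g - algebraMap K F (placeVal v f) * algebraMap K F (placeVal v g) =
    (f - algebraMap K F (placeVal v f)) * g +
      algebraMap K F (placeVal v f) * (g - algebraMap K F (placeVal v g)) by ring]
  exact (((placeVal_spec hf).mul hg).mono (by omega)).add
    (((ordGE_algebraMap _).mul (placeVal_spec hg)).mono (by omega))

/-- The value is zero iff the function vanishes. -/
theorem placeVal_eq_zero_iff {f : F} (hf : OrdGE v 0 f) : placeVal v f = 0 ↔ OrdGE v 1 f :=
  ⟨fun h => by simpa [h] using placeVal_spec hf, fun h => placeVal_eq (by simpa using h)⟩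

variable (v) in
/-- Evaluation at a place. -/
def valHom : v.toValuationSubring →+* K where
  toFun f := placeVal v (f : F)
  map_one' := by
    rw [OneMemClass.coe_one, ← map_one (algebraMap K F)]; exact placeVal_algebraMap 1
  map_zero' := by
    rw [ZeroMemClass.coe_zero, ← map_zero (algebraMap K F)]; exact placeVal_algebraMap 0
  map_add' f g := placeVal_add (mem_iff_ordGE.1 f.2) (mem_iff_ordGE.1 g.2)
  map_mul' f g := placeVal_mul (mem_iff_ordGE.1 f.2) (mem_iff_ordGE.1 g.2)

omit [IsAlgClosed K] in
/-- More than `[F : K(x)]` elements integral over `K[x]` are dependent modulo `x - a`. -/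
theorem exists_dependent_mod {x : F} (hx : Transcendental K x) (a : K) {ι : Type*} [Fintype ι]
    (v : ι → F) (hv : ∀ i, IntOver K x (v i))
    (hcard : Module.finrank (IntermediateField.adjoin K {x}) F < Fintype.card ι) :
    ∃ c : ι → K, c ≠ 0 ∧ ∃ h : F, IntOver K x h ∧
      ∑ i, algebraMap K F (c i) * v i = (x - algebraMap K F a) * h := by
  classical
  set E := IntermediateField.adjoin K {x}
  have : FiniteDimensional E F := IsFF.finite_adjoin hx
  -- a polynomial relation
  obtain ⟨q, hq, hsum⟩ : ∃ q : ι → K[X], q ≠ 0 ∧ ∑ i, aeval x (q i) * v i = 0 := by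
    have hli : ¬ LinearIndependent E v := fun h =>
      absurd h.fintype_card_le_finrank (not_le.mpr hcard)
    rw [Fintype.linearIndependent_iff] at hli
    push Not at hli
    obtain ⟨g, hg, i0, hi0⟩ := hli
    have hden : ∀ i, ∃ r s : K[X], aeval x s ≠ 0 ∧ (g i : F) * aeval x s = aeval x r := fun i => by
      obtain ⟨r, s, h⟩ := (IntermediateField.mem_adjoin_simple_iff K _).mp (g i).2
      by_cases hs : aeval x s = 0
      · exact ⟨0, 1, by simp, by rw [h, hs, div_zero, zero_mul, map_zero]⟩
      · exact ⟨r, s, hs, by rw [h, div_mul_cancel₀ _ hs]⟩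
    choose r s hs hrs using hden
    refine ⟨fun i => r i * ∏ j ∈ Finset.univ.erase i, s j, fun h0 => ?_, ?_⟩
    · have h1 := congrArg (aeval x) (congrFun h0 i0)
      rw [map_mul, ← hrs, map_prod, Pi.zero_apply, map_zero] at h1
      rcases mul_eq_zero.mp h1 with h2 | h2
      · rcases mul_eq_zero.mp h2 with h3 | h3
        · exact hi0 (Subtype.ext h3)
        · exact hs i0 h3
      · exact Finset.prod_ne_zero_iff.mpr (fun j _ => hs j) h2
    · have h1 : (∏ j, aeval x (s j)) * ∑ i, (g i : F) * v i = 0 := by
        refine mul_eq_zero_of_right _ ?_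
        simpa [IntermediateField.smul_def] using hg
      rw [Finset.mul_sum] at h1
      refine Eq.trans (Finset.sum_congr rfl fun i _ => ?_) h1
      rw [map_mul, ← hrs, map_prod, ← Finset.mul_prod_erase _ _ (Finset.mem_univ i)]
      ring
  -- divide by `x - a` as long as possible
  suffices key : ∀ (n : ℕ) (q : ι → K[X]), q ≠ 0 → ∑ i, (q i).natDegree ≤ n →
      ∑ i, aeval x (q i) * v i = 0 → ∃ c : ι → K, c ≠ 0 ∧ ∃ h : F, IntOver K x h ∧
        ∑ i, algebraMap K F (c i) * v i = (x - algebraMap K F a) * h from key _ q hq le_rfl hsum
  intro n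
  induction n using Nat.strong_induction_on with
  | _ n ih =>
    intro q hq hn hsum
    choose d hd using fun i => X_sub_C_dvd_sub_C_eval (p := q i) (a := a)
    by_cases hc : (fun i => (q i).eval a) = 0
    · have hqd : ∀ i, q i = (X - C a) * d i := fun i => by
        rw [← hd, show (q i).eval a = 0 from congrFun hc i, map_zero, sub_zero]
      have hd0 : d ≠ 0 := fun h => hq (funext fun i => by rw [hqd, h, Pi.zero_apply, mul_zero])
      obtain ⟨i0, hi0⟩ := Function.ne_iff.mp hd0
      have hlt : ∑ i, (d i).natDegree < ∑ i, (q i).natDegree := by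
        refine Finset.sum_lt_sum (fun i _ => ?_) ⟨i0, Finset.mem_univ _, ?_⟩
        · rcases eq_or_ne (d i) 0 with h | h
          · simp [h]
          · rw [hqd i, natDegree_mul (X_sub_C_ne_zero a) h]; omega
        · rw [hqd i0, natDegree_mul (X_sub_C_ne_zero a) hi0, natDegree_X_sub_C]; omega
      refine ih _ (hlt.trans_le hn) d hd0 le_rfl ?_
      have hxa : x - algebraMap K F a ≠ 0 := fun h => hx (by
        rw [sub_eq_zero.mp h]; exact isAlgebraic_algebraMap a)
      refine (mul_eq_zero.mp ?_).resolve_left hxa
      rw [Finset.mul_sum, ← hsum]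
      exact Finset.sum_congr rfl fun i _ => by rw [hqd i, map_mul, map_sub, aeval_X, aeval_C]; ring
    · refine ⟨_, hc, -∑ i, aeval x (d i) * v i, ?_, ?_⟩
      · rw [← neg_one_mul]
        refine IntOver.mul ?_ (IntOver.sum _ fun i _ => (intOver_aeval x _).mul (hv i))
        rw [← map_one (algebraMap K F), ← map_neg]
        exact intOver_algebraMap x _
      · rw [mul_neg, Finset.mul_sum, ← Finset.sum_neg_distrib]
        have h2 : ∀ i, algebraMap K F ((q i).eval a) * v i =
            aeval x (q i) * v i + -((x - algebraMap K F a) * (aeval x (d i) * v i)) := fun i => by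
          have := congrArg (aeval x) (hd i)
          rw [map_sub, aeval_C, map_mul, map_sub, aeval_X, aeval_C] at this
          linear_combination -(v i) * this
        simp only [h2]
        rw [Finset.sum_add_distrib, hsum, zero_add]

end FermatAgent.Curve
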