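import Fermat.Agent.Curve.Hurwitz
import Fermat.Agent.Curve.Approximation
import Fermat.Agent.Curve.Extension

/-!
# Elements integral over `K[x]`: criterion and approximation
-/

set_option autoImplicit false

noncomputable section

open AlgebraicCurve Polynomial

namespace FermatAgent.Curve

variable {K F : Type*} [Field K] [Field F] [Algebra K F]

/-- `f` is integral over `K[x]`. -/
def IntOver (K : Type*) {F : Type*} [Field K] [Field F] [Algebra K F] (x f : F) : Prop :=
  (aeval (R := K) x).toRingHom.IsIntegralElem f

/-- An element integral over `K[x]` is regular where `x` is. -/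
theorem IntOver.ordGE {x f : F} (h : IntOver K x f) {v : Place K F} (hv : 0 ≤ v.ord x) :
    OrdGE v 0 f := by
  obtain ⟨p, hp, h0⟩ := h
  rw [← mem_iff_ordGE]
  have hx : x ∈ v.toValuationSubring := mem_iff_ordGE.2 (Or.inr hv)
  have hint : IsIntegral v.toValuationSubring f := by
    refine ⟨p.map (aeval (R := K) (⟨x, hx⟩ : v.toValuationSubring)).toRingHom, hp.map _, ?_⟩
    rw [eval₂_map]
    refine Eq.trans ?_ h0
    congr 1
    refine RingHom.ext fun q => ?_
    exact (aeval_algebraMap_apply (A := v.toValuationSubring) F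
      (⟨x, hx⟩ : v.toValuationSubring) q).symm
  obtain ⟨y, hy⟩ := IsIntegrallyClosed.isIntegral_iff.mp hint
  exact hy ▸ y.2

variable [IsFF K F]

/-- An element regular at every place where `x` is regular is integral over `K[x]`. -/
theorem intOver_of_ordGE {x f : F} (h : ∀ v : Place K F, 0 ≤ v.ord x → OrdGE v 0 f) :
    IntOver K x f :=
  isIntegralElem_of_forall_valuationSubring _ fun V hV => by
    by_cases htop : V = ⊤
    · subst htop; exact ValuationSubring.mem_top f
    have hK : ∀ a : K, algebraMap K F a ∈ V := fun a => aeval_C (R := K) x a ▸ hV (C a)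
    refine (mem_iff_ordGE (v := placeOfValuationSubring V hK htop)).2 (h _ ?_)
    rcases eq_or_ne x 0 with rfl | hx0
    · simp
    · exact (mem_iff_ord_nonneg hx0).1 (aeval_X (R := K) x ▸ hV X)

variable [IsAlgClosed K]

/-- The value of `x` at a place. -/
def valueAt (K : Type*) {F : Type*} [Field K] [Field F] [Algebra K F] (x : F) (v : Place K F) : K :=
  open Classical in if h : ∃ a : K, 0 < v.ord (x - algebraMap K F a) then h.choose else 0

theorem valueAt_spec {x : F} (hx : Transcendental K x) {v : Place K F} (hv : 0 ≤ v.ord x) :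
    0 < v.ord (x - algebraMap K F (valueAt K x v)) := by
  have h := exists_value v hv hx
  rw [valueAt, dif_pos h]
  exact h.choose_spec

/-- Approximation by elements integral over `K[x]`. -/
theorem exists_intOver_approx {x : F} (hx : Transcendental K x) (S : Finset (Place K F))
    (hS : ∀ v ∈ S, 0 ≤ v.ord x) (t : Place K F → F) (ht : ∀ v ∈ S, OrdGE v 0 (t v)) (N : ℕ) :
    ∃ f : F, IntOver K x f ∧ ∀ v ∈ S, OrdGE v N (f - t v) := by
  classical
  set V : Finset K := S.image (valueAt K x)
  set S' : Finset (Place K F) := S ∪ V.biUnion fun a => zerosSub x a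
  set t' : Place K F → F := fun v => if v ∈ S then t v else 0
  obtain ⟨f0, hf0⟩ := exists_approx S' t' (N : ℤ)
  -- the bad places of `f0`
  set B := ((finite_ord_ne_zero (K := K) f0).toFinset).filter fun v => 0 ≤ v.ord x ∧ v.ord f0 < 0
  set e : ℕ := ∑ v ∈ B, (v.ord f0).natAbs
  set q : K[X] := ∏ a ∈ B.image (valueAt K x), (X - C a) ^ e
  have hdisj : ∀ b ∈ B, valueAt K x b ∉ V := by
    intro b hb hbV
    simp only [B, Finset.mem_filter] at hb
    have hbS : b ∈ S' := by
      refine Finset.mem_union_right _ (Finset.mem_biUnion.2 ⟨_, hbV, ?_⟩)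
      rw [mem_zerosSub]
      exact valueAt_spec hx hb.2.1
    have h := hf0 b hbS
    have ht' : OrdGE b 0 (t' b) := by
      by_cases hbs : b ∈ S
      · simp only [t', hbs, if_pos]; exact ht b hbs
      · simp only [t', hbs, if_false]; exact OrdGE.zero
    have h0 : OrdGE b 0 f0 := by
      have := (h.mono (by omega : (0 : ℤ) ≤ N)).add ht'
      rwa [sub_add_cancel] at this
    rcases h0 with h0 | h0
    · rw [h0, Place.ord_zero] at hb; omega
    · omega
  have hco : IsCoprime q (∏ a ∈ V, (X - C a) ^ N) := by
    refine IsCoprime.prod_left fun a ha => IsCoprime.prod_right fun b hb => IsCoprime.pow ?_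
    refine (pairwise_coprime_X_sub_C Function.injective_id) fun h => ?_
    obtain ⟨v, hv, rfl⟩ := Finset.mem_image.1 ha
    exact hdisj v hv (h ▸ hb)
  obtain ⟨r, s, hrs⟩ := hco
  refine ⟨f0 * aeval x (r * q), intOver_of_ordGE fun v hv => ?_, fun v hv => ?_⟩
  · have hpol : ∀ p : K[X], OrdGE v 0 (aeval x p) := fun p => by
      rw [← mem_iff_ordGE]
      induction p using Polynomial.induction_on' with
      | add a b ha hb => rw [map_add]; exact add_mem ha hb
      | monomial n a =>
        rw [aeval_monomial]
        exact mul_mem (v.algebraMap_mem' a) (pow_mem (mem_iff_ordGE.2 (Or.inr hv)) n)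
    by_cases hvB : v ∈ B
    · have hva : valueAt K x v ∈ B.image (valueAt K x) := Finset.mem_image_of_mem _ hvB
      obtain ⟨q', hq'⟩ := Finset.dvd_prod_of_mem (fun a => (X - C a) ^ e) hva
      have he : ((v.ord f0).natAbs : ℤ) ≤ e := by
        exact_mod_cast Finset.single_le_sum (f := fun v => (v.ord f0).natAbs)
          (fun _ _ => Nat.zero_le _) hvB
      have h1 : OrdGE v ((e : ℤ) * 1) ((x - algebraMap K F (valueAt K x v)) ^ e) :=
        OrdGE.pow (Or.inr (valueAt_spec hx hv) : OrdGE v 1 _) e
      rw [show q = _ from hq', map_mul, map_mul, map_pow, map_sub, aeval_X, aeval_C]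
      exact ((ordGE_self (v := v) f0).mul ((hpol r).mul (h1.mul (hpol q')))).mono (by omega)
    · have h0 : OrdGE v 0 f0 := by
        by_contra hneg
        simp only [OrdGE, not_or, not_le] at hneg
        exact hvB (by simp [B, hv, hneg.2, ne_of_lt hneg.2])
      exact (h0.mul (hpol _)).mono (by omega)
  · have hvS' : v ∈ S' := Finset.mem_union_left _ hv
    have h := hf0 v hvS'
    simp only [t', hv, if_pos] at h
    have h1 : OrdGE v N (aeval x (r * q) - 1) := by
      have e1 : r * q - 1 = -(s * ∏ a ∈ V, (X - C a) ^ N) := by rw [← hrs]; ring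
      rw [← map_one (aeval (R := K) x), ← map_sub, e1]
      obtain ⟨p', hp'⟩ := Finset.dvd_prod_of_mem (fun a => (X - C a) ^ N)
        (Finset.mem_image_of_mem (valueAt K x) hv : valueAt K x v ∈ V)
      rw [show (∏ a ∈ V, (X - C a) ^ N : K[X]) = _ from hp', mul_left_comm, map_neg, map_mul,
        map_pow, map_sub, aeval_X, aeval_C]
      refine OrdGE.neg ?_
      have hs : OrdGE v 0 (aeval x (s * p')) := by
        rw [← mem_iff_ordGE]
        induction s * p' using Polynomial.induction_on' with
        | add a b ha hb => rw [map_add]; exact add_mem ha hb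
        | monomial n a =>
          rw [aeval_monomial]
          exact mul_mem (v.algebraMap_mem' a) (pow_mem (mem_iff_ordGE.2 (Or.inr (hS v hv))) n)
      exact ((OrdGE.pow (Or.inr (valueAt_spec hx (hS v hv)) : OrdGE v 1 _) N).mul hs).mono
        (by omega)
    have ht0 : OrdGE v 0 f0 := by
      have := (h.mono (by omega : (0 : ℤ) ≤ N)).add (ht v hv)
      rwa [sub_add_cancel] at this
    have e2 : f0 * aeval x (r * q) - t v = (f0 - t v) + f0 * (aeval x (r * q) - 1) := by ring
    rw [e2]
    exact h.add ((ht0.mul h1).mono (by omega))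

end FermatAgent.Curve
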